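import Fermat.Agent.UniformSquare.Minimal
import Mathlib.NumberTheory.Real.GoldenRatio

/-!
# The theorem of Davenport and Schmidt

For uniformly good minimal points `x` the integer `x0 x2 - x1 ^ 2` is nonzero, so
`q (i + 1) ^ λ ≪ q i`, and infinitely often three consecutive ones are independent, so
`1 ≪ q (i + 1) ^ (1 - λ) q i ^ (-λ)`; hence `λ ^ 2 + λ ≤ 1`.
-/

set_option autoImplicit false

noncomputable section

open Filter Topology

namespace FA.UniformSquare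

/-- The exponent `1 / γ`. -/
def lam : ℝ := (Real.sqrt 5 - 1) / 2

theorem lam_sq : lam ^ 2 + lam = 1 := by
  have h := Real.sq_sqrt (show (0 : ℝ) ≤ 5 by norm_num)
  unfold lam
  nlinarith

theorem half_lt_lam : 1 / 2 < lam := by
  have h := Real.sq_sqrt (show (0 : ℝ) ≤ 5 by norm_num)
  unfold lam
  nlinarith [Real.sqrt_nonneg 5]

theorem lam_lt_one : lam < 1 := by
  have h := Real.sq_sqrt (show (0 : ℝ) ≤ 5 by norm_num)
  unfold lam
  nlinarith [Real.sqrt_nonneg 5]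

/-- The minimal point of height `q`. -/
def point (ξ : ℝ) (q : ℕ) : ℤ × ℤ × ℤ := (q, round ((q : ℝ) * ξ), round ((q : ℝ) * ξ ^ 2))

/-- The cross product. -/
def cross (x y : ℤ × ℤ × ℤ) : ℤ × ℤ × ℤ :=
  (x.2.1 * y.2.2 - x.2.2 * y.2.1, x.2.2 * y.1 - x.1 * y.2.2, x.1 * y.2.1 - x.2.1 * y.1)

/-- The scalar product. -/
def dot (x y : ℤ × ℤ × ℤ) : ℤ := x.1 * y.1 + x.2.1 * y.2.1 + x.2.2 * y.2.2

/-- A vector orthogonal to two points is orthogonal to all in their plane. -/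
theorem dot_eq_zero_of_coplanar {n x y z : ℤ × ℤ × ℤ} (hxy : cross x y ≠ (0, 0, 0))
    (hx : dot n x = 0) (hy : dot n y = 0) (hz : dot (cross x y) z = 0) : dot n z = 0 := by
  obtain ⟨a, b, c⟩ := n
  obtain ⟨x0, x1, x2⟩ := x
  obtain ⟨y0, y1, y2⟩ := y
  obtain ⟨z0, z1, z2⟩ := z
  simp only [cross, dot, ne_eq, Prod.mk.injEq] at *
  rcases not_and_or.1 hxy with h | h
  · exact (mul_eq_zero.1 (show (x1 * y2 - x2 * y1) * (a * z0 + b * z1 + c * z2) = 0 by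
      linear_combination a * hz + (x1 * z2 - x2 * z1) * hy -
        (y1 * z2 - y2 * z1) * hx)).resolve_left h
  rcases not_and_or.1 h with h | h
  · exact (mul_eq_zero.1 (show (x2 * y0 - x0 * y2) * (a * z0 + b * z1 + c * z2) = 0 by
      linear_combination b * hz + (x2 * z0 - x0 * z2) * hy -
        (y2 * z0 - y0 * z2) * hx)).resolve_left h
  · exact (mul_eq_zero.1 (show (x0 * y1 - x1 * y0) * (a * z0 + b * z1 + c * z2) = 0 by
      linear_combination c * hz + (x0 * z1 - x1 * z0) * hy -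
        (y0 * z1 - y1 * z0) * hx)).resolve_left h

theorem abs_err_fst (ξ : ℝ) (q : ℕ) :
    |(q : ℝ) * ξ - round ((q : ℝ) * ξ)| ≤ err ξ q := le_max_left _ _

theorem abs_err_snd (ξ : ℝ) (q : ℕ) :
    |(q : ℝ) * ξ ^ 2 - round ((q : ℝ) * ξ ^ 2)| ≤ err ξ q := le_max_right _ _

theorem abs_det_le {ξ : ℝ} {p q r : ℕ} (hpq : p ≤ q) (hqr : q ≤ r)
    (hpq' : err ξ q ≤ err ξ p) (hqr' : err ξ r ≤ err ξ q) :
    |(dot (cross (point ξ p) (point ξ q)) (point ξ r) : ℝ)| ≤ 6 * r * err ξ q * err ξ p := by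
  have e : (dot (cross (point ξ p) (point ξ q)) (point ξ r) : ℝ) =
      (p : ℝ) * (((q : ℝ) * ξ - round ((q : ℝ) * ξ)) * ((r : ℝ) * ξ ^ 2 - round ((r : ℝ) * ξ ^ 2)) -
        ((q : ℝ) * ξ ^ 2 - round ((q : ℝ) * ξ ^ 2)) * ((r : ℝ) * ξ - round ((r : ℝ) * ξ))) -
      (q : ℝ) * (((p : ℝ) * ξ - round ((p : ℝ) * ξ)) * ((r : ℝ) * ξ ^ 2 - round ((r : ℝ) * ξ ^ 2)) -
        ((p : ℝ) * ξ ^ 2 - round ((p : ℝ) * ξ ^ 2)) * ((r : ℝ) * ξ - round ((r : ℝ) * ξ))) +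
      (r : ℝ) * (((p : ℝ) * ξ - round ((p : ℝ) * ξ)) * ((q : ℝ) * ξ ^ 2 - round ((q : ℝ) * ξ ^ 2)) -
        ((p : ℝ) * ξ ^ 2 - round ((p : ℝ) * ξ ^ 2)) * ((q : ℝ) * ξ - round ((q : ℝ) * ξ))) := by
    simp only [point, cross, dot]
    push_cast
    ring
  have key : ∀ {a b : ℕ} {w A B : ℝ}, 0 ≤ w → err ξ a ≤ A → err ξ b ≤ B →
      |w * (((a : ℝ) * ξ - round ((a : ℝ) * ξ)) * ((b : ℝ) * ξ ^ 2 - round ((b : ℝ) * ξ ^ 2)) -
        ((a : ℝ) * ξ ^ 2 - round ((a : ℝ) * ξ ^ 2)) * ((b : ℝ) * ξ - round ((b : ℝ) * ξ)))| ≤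
          w * (2 * (A * B)) := fun {a b w A B} hw hA hB => by
    rw [abs_mul, abs_of_nonneg hw]
    refine mul_le_mul_of_nonneg_left ((abs_sub _ _).trans ?_) hw
    rw [abs_mul, abs_mul, two_mul]
    have h0 := (err_nonneg ξ a).trans hA
    exact add_le_add
      (mul_le_mul ((abs_err_fst ξ a).trans hA) ((abs_err_snd ξ b).trans hB) (abs_nonneg _) h0)
      (mul_le_mul ((abs_err_snd ξ a).trans hA) ((abs_err_fst ξ b).trans hB) (abs_nonneg _) h0)
  have hpr : (p : ℝ) ≤ r := Nat.cast_le.2 (hpq.trans hqr)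
  have hqr2 : (q : ℝ) ≤ r := Nat.cast_le.2 hqr
  have h1 := key (a := q) (b := r) p.cast_nonneg le_rfl (hqr'.trans hpq')
  have h2 := key (a := p) (b := r) q.cast_nonneg le_rfl hqr'
  have h3 := key (a := p) (b := q) r.cast_nonneg le_rfl le_rfl
  have h0 : 0 ≤ err ξ q * err ξ p := mul_nonneg (err_nonneg _ _) (err_nonneg _ _)
  rw [e]
  refine (abs_add_le _ _).trans ?_
  refine (add_le_add ((abs_sub _ _).trans (add_le_add h1 h2)) h3).trans ?_
  have := mul_le_mul_of_nonneg_right hpr h0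
  have := mul_le_mul_of_nonneg_right hqr2 h0
  linarith

/-- Uniform approximation of exponent `1 / γ` from `X0` on with the constant `c`. -/
def Uniform (ξ c X0 : ℝ) : Prop :=
  ∀ X : ℝ, X0 ≤ X → ∃ x0 x1 x2 : ℤ, (x0 ≠ 0 ∨ x1 ≠ 0 ∨ x2 ≠ 0) ∧ |(x0 : ℝ)| ≤ X ∧
    max |(x0 : ℝ) * ξ - x1| |(x0 : ℝ) * ξ ^ 2 - x2| ≤ c * X ^ (-lam)

theorem good_of_uniform {ξ c X0 : ℝ} (h : Uniform ξ c X0) : Good ξ := fun v hv => by
  have hlim : Tendsto (fun X : ℝ => c * X ^ (-lam)) atTop (𝓝 0) := by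
    simpa using (tendsto_rpow_neg_atTop (by linarith [half_lt_lam] : 0 < lam)).const_mul c
  obtain ⟨X, hX, hsmall⟩ := ((eventually_ge_atTop X0).and
    (hlim.eventually_lt_const (lt_min hv one_pos))).exists
  obtain ⟨x0, x1, x2, hne, -, hle⟩ := h X hX
  have hlt := hle.trans_lt hsmall
  refine ⟨x0.natAbs, Nat.one_le_iff_ne_zero.2 fun h0 => ?_,
    (err_le_max ξ x0 x1 x2).trans_lt (hlt.trans_le (min_le_left _ _))⟩
  rw [Int.natAbs_eq_zero] at h0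
  subst h0
  have hlt' := hlt.trans_le (min_le_right _ _)
  simp only [Int.cast_zero, zero_mul, zero_sub, abs_neg] at hlt'
  rcases hne with h | h | h
  · exact h rfl
  · exact absurd (le_max_left _ _ |>.trans_lt hlt') (by exact_mod_cast (Int.one_le_abs h).not_gt)
  · exact absurd (le_max_right _ _ |>.trans_lt hlt') (by exact_mod_cast (Int.one_le_abs h).not_gt)

section

variable {ξ : ℝ} (hξ : NotQuadratic ξ) (hg : Good ξ)

theorem cross_rec_ne_zero (i : ℕ) :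
    cross (point ξ (rec' hξ hg i)) (point ξ (rec' hξ hg (i + 1))) ≠ (0, 0, 0) := by
  intro h
  simp only [cross, point, Prod.mk.injEq] at h
  obtain ⟨-, h2, h3⟩ := h
  have h2' : (round ((rec' hξ hg i : ℝ) * ξ ^ 2) : ℝ) * (rec' hξ hg (i + 1) : ℝ) -
      (rec' hξ hg i : ℝ) * round ((rec' hξ hg (i + 1) : ℝ) * ξ ^ 2) = 0 := by exact_mod_cast h2
  have h3' : (rec' hξ hg i : ℝ) * round ((rec' hξ hg (i + 1) : ℝ) * ξ) -
      (round ((rec' hξ hg i : ℝ) * ξ) : ℝ) * (rec' hξ hg (i + 1) : ℝ) = 0 := by exact_mod_cast h3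
  set p := rec' hξ hg i
  set q := rec' hξ hg (i + 1)
  have e1 : (p : ℝ) * ((q : ℝ) * ξ - round ((q : ℝ) * ξ)) =
      (q : ℝ) * ((p : ℝ) * ξ - round ((p : ℝ) * ξ)) := by linear_combination -h3'
  have e2 : (p : ℝ) * ((q : ℝ) * ξ ^ 2 - round ((q : ℝ) * ξ ^ 2)) =
      (q : ℝ) * ((p : ℝ) * ξ ^ 2 - round ((p : ℝ) * ξ ^ 2)) := by linear_combination h2'
  have e : (p : ℝ) * err ξ q = (q : ℝ) * err ξ p := by
    rw [err, err, mul_max_of_nonneg _ _ p.cast_nonneg, mul_max_of_nonneg _ _ q.cast_nonneg]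
    congr 1
    · simpa only [abs_mul, Nat.abs_cast] using congrArg abs e1
    · simpa only [abs_mul, Nat.abs_cast] using congrArg abs e2
  have hpq : (p : ℝ) < q := Nat.cast_lt.2 (rec_lt_succ hξ hg i)
  have hlt : err ξ q < err ξ p := err_rec_succ hξ hg i
  have hp : (1 : ℝ) ≤ p := by exact_mod_cast one_le_rec hξ hg i
  nlinarith [err_nonneg ξ q]

/-- A minimal point on the conic is `(Q ^ 2, P Q, P ^ 2)`. -/
theorem conic_point {i : ℕ} (h : (rec' hξ hg (i + 1) : ℤ) *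
      round ((rec' hξ hg (i + 1) : ℝ) * ξ ^ 2) = round ((rec' hξ hg (i + 1) : ℝ) * ξ) ^ 2) :
    ∃ Q P : ℤ, 1 ≤ Q ∧ IsCoprime Q P ∧ (rec' hξ hg (i + 1) : ℤ) = Q ^ 2 ∧
      round ((rec' hξ hg (i + 1) : ℝ) * ξ) = P * Q ∧
      round ((rec' hξ hg (i + 1) : ℝ) * ξ ^ 2) = P ^ 2 := by
  set q := rec' hξ hg (i + 1) with hq
  have hq1 : 1 ≤ q := one_le_rec hξ hg (i + 1)
  set x1 := round ((q : ℝ) * ξ) with hx1
  set x2 := round ((q : ℝ) * ξ ^ 2) with hx2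
  obtain ⟨Q, P, hcop, hQ', hP'⟩ := Int.exists_gcd_one (m := (q : ℤ)) (n := x1)
    (Int.gcd_pos_of_ne_zero_left _ (by omega))
  set g : ℤ := (Int.gcd (q : ℤ) x1 : ℤ)
  have hg0 : 0 < g := Int.natCast_pos.2 (Int.gcd_pos_of_ne_zero_left _ (by omega))
  have hQ1 : 1 ≤ Q := by nlinarith
  have hco : IsCoprime Q P := Int.isCoprime_iff_gcd_eq_one.2 hcop
  have hx : Q * x2 = P ^ 2 * g := by
    have h' : g * (Q * x2) = g * (P ^ 2 * g) := by
      rw [hQ', hP'] at h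
      linear_combination h
    exact mul_left_cancel₀ hg0.ne' h'
  obtain ⟨t, ht⟩ : Q ∣ g := (hco.pow_right (n := 2)).dvd_of_dvd_mul_left ⟨x2, hx.symm⟩
  have ht0 : 1 ≤ t := by nlinarith
  have hx2t : x2 = P ^ 2 * t := mul_left_cancel₀ (by omega : Q ≠ 0) (by rw [hx, ht]; ring)
  have hone : t = 1 := by
    by_contra hne
    have hlt : (Q ^ 2).natAbs < rec' hξ hg (i + 1) := by
      rw [← hq]
      have h2 : Q ^ 2 < (q : ℤ) := by
        rw [hQ', ht]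
        nlinarith [mul_le_mul_of_nonneg_left (by omega : (2 : ℤ) ≤ t) (sq_nonneg Q)]
      have h0 := sq_nonneg Q
      omega
    have heq : max |((Q ^ 2 : ℤ) : ℝ) * ξ - ((P * Q : ℤ) : ℝ)|
        |((Q ^ 2 : ℤ) : ℝ) * ξ ^ 2 - ((P ^ 2 : ℤ) : ℝ)| * t = err ξ q := by
      have ht' : (0 : ℝ) ≤ (t : ℝ) := by exact_mod_cast (by omega : 0 ≤ t)
      have hqr : ((q : ℤ) : ℝ) = ((Q ^ 2 * t : ℤ) : ℝ) := by rw [hQ', ht]; push_cast; ring
      rw [err, max_mul_of_nonneg _ _ ht']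
      have a1 : (x1 : ℝ) = ((P * Q : ℤ) : ℝ) * t := by rw [hP', ht]; push_cast; ring
      have a2 : (x2 : ℝ) = ((P ^ 2 : ℤ) : ℝ) * t := by rw [hx2t]; push_cast; ring
      rw [← hx1, ← hx2, a1, a2, show (q : ℝ) = ((Q ^ 2 : ℤ) : ℝ) * t by
        rw [← Int.cast_natCast, hqr, Int.cast_mul]]
      congr 1 <;> rw [← abs_of_nonneg ht', ← abs_mul, abs_of_nonneg ht'] <;> congr 1 <;> ring
    have hge := err_rec_le_max hξ hg (i := i) (x1 := P * Q) (x2 := P ^ 2)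
      (Or.inl (pow_ne_zero 2 (by omega))) hlt
    have hlt2 := err_rec_succ hξ hg i
    rw [← hq] at hlt2
    have ht2 : (2 : ℝ) ≤ t := by exact_mod_cast (by omega : 2 ≤ t)
    nlinarith [err_nonneg ξ q]
  subst hone
  rw [mul_one] at ht hx2t
  refine ⟨Q, P, hQ1, hco, ?_, ?_, hx2t⟩
  · rw [hQ', ht]; ring
  · rw [hP', ht]

/-- The conic is avoided. -/
theorem det_ne_zero {c : ℝ} {i : ℕ}
    (hb : err ξ (rec' hξ hg i) ≤ 2 * c * (rec' hξ hg (i + 1) : ℝ) ^ (-lam))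
    (hc : 10 * c * (|ξ| + 1) ≤ 1) :
    (rec' hξ hg (i + 1) : ℤ) * round ((rec' hξ hg (i + 1) : ℝ) * ξ ^ 2) -
      round ((rec' hξ hg (i + 1) : ℝ) * ξ) ^ 2 ≠ 0 := by
  intro h
  obtain ⟨Q, P, hQ1, hco, hq, hx1, hx2⟩ := conic_point hξ hg (sub_eq_zero.1 h)
  set q := rec' hξ hg (i + 1) with hqdef
  set p := rec' hξ hg i with hpdef
  have hpq : p < q := rec_lt_succ hξ hg i
  have hp1 : 1 ≤ p := one_le_rec hξ hg i
  have hLle : err ξ q ≤ err ξ p := (err_rec_succ hξ hg i).le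
  set y1 := round ((p : ℝ) * ξ) with hy1
  set y2 := round ((p : ℝ) * ξ ^ 2) with hy2
  have hQ : (1 : ℝ) ≤ Q := by exact_mod_cast hQ1
  have hqR : (q : ℝ) = (Q : ℝ) ^ 2 := by exact_mod_cast hq
  have hpR : (p : ℝ) ≤ (Q : ℝ) ^ 2 := hqR ▸ Nat.cast_le.2 hpq.le
  have hd : |(Q : ℝ) * ξ - P| * Q ≤ err ξ p := by
    refine le_trans ?_ ((abs_err_fst ξ q).trans hLle)
    rw [hx1, hqR, Int.cast_mul]
    rw [show |(Q : ℝ) * ξ - P| * Q = |((Q : ℝ) * ξ - P) * Q| by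
      rw [abs_mul, abs_of_nonneg (zero_le_one.trans hQ)]]
    exact le_of_eq (congrArg abs (by ring))
  have hL0 := err_nonneg ξ p
  have hP : |(P : ℝ)| ≤ Q * (|ξ| + 1) := by
    have h1 : |(Q : ℝ) * ξ - P| ≤ 1 := by nlinarith [err_le ξ p, abs_nonneg ((Q : ℝ) * ξ - P)]
    have h2 := abs_sub_abs_le_abs_sub (P : ℝ) ((Q : ℝ) * ξ)
    rw [abs_mul, abs_of_nonneg (zero_le_one.trans hQ), abs_sub_comm] at h2
    nlinarith
  have hA : |(Q : ℝ) * y1 - P * p| ≤ 2 * Q * err ξ p := by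
    rw [show (Q : ℝ) * y1 - P * p = (p : ℝ) * ((Q : ℝ) * ξ - P) - Q * ((p : ℝ) * ξ - y1) by ring]
    refine (abs_sub _ _).trans ?_
    rw [abs_mul, abs_mul, Nat.abs_cast, abs_of_nonneg (zero_le_one.trans hQ)]
    have h1 : (p : ℝ) * |(Q : ℝ) * ξ - P| ≤ Q * err ξ p := by
      nlinarith [mul_le_mul_of_nonneg_right hpR (abs_nonneg ((Q : ℝ) * ξ - P))]
    nlinarith [abs_err_fst ξ p]
  have hB : |(Q : ℝ) * y2 - P * y1| ≤ (2 * |ξ| + 2) * Q * err ξ p := by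
    rw [show (Q : ℝ) * y2 - P * y1 = P * ((p : ℝ) * ξ - y1) - Q * ((p : ℝ) * ξ ^ 2 - y2) +
      (p : ℝ) * ξ * ((Q : ℝ) * ξ - P) by ring]
    refine (abs_add_le _ _).trans ((add_le_add_left ((abs_sub _ _)) _).trans ?_)
    rw [abs_mul, abs_mul, abs_mul, abs_mul, Nat.abs_cast, abs_of_nonneg (zero_le_one.trans hQ)]
    have h1 : (p : ℝ) * |ξ| * |(Q : ℝ) * ξ - P| ≤ |ξ| * (Q * err ξ p) := by
      have := mul_le_mul_of_nonneg_right hpR (abs_nonneg ((Q : ℝ) * ξ - P))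
      have : (p : ℝ) * |(Q : ℝ) * ξ - P| ≤ Q * err ξ p := by nlinarith
      nlinarith [abs_nonneg ξ]
    have h2 : |(P : ℝ)| * |(p : ℝ) * ξ - y1| ≤ Q * (|ξ| + 1) * err ξ p :=
      mul_le_mul hP (abs_err_fst ξ p) (abs_nonneg _) (by positivity)
    have h3 : (Q : ℝ) * |(p : ℝ) * ξ ^ 2 - y2| ≤ Q * err ξ p :=
      mul_le_mul_of_nonneg_left (abs_err_snd ξ p) (by linarith)
    linarith
  have hsmall : (2 * |ξ| + 2) * Q * err ξ p < 1 := by
    have hpow : (q : ℝ) ^ (-lam) * Q ≤ 1 := by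
      rw [hqR, ← Real.rpow_natCast, ← Real.rpow_mul (by linarith)]
      calc (Q : ℝ) ^ (((2 : ℕ) : ℝ) * -lam) * Q
          = (Q : ℝ) ^ (((2 : ℕ) : ℝ) * -lam + 1) := by
            rw [Real.rpow_add (by linarith), Real.rpow_one]
        _ ≤ 1 := Real.rpow_le_one_of_one_le_of_nonpos hQ (by push_cast; linarith [half_lt_lam])
    have hc0 : 0 ≤ c := by
      have hpos : (0 : ℝ) < (q : ℝ) ^ (-lam) := Real.rpow_pos_of_pos
        (Nat.cast_pos.2 (by omega)) _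
      nlinarith
    have := mul_le_mul_of_nonneg_right hb (by linarith : (0 : ℝ) ≤ Q)
    nlinarith [abs_nonneg ξ, mul_le_mul_of_nonneg_left hpow hc0]
  have hA' : Q * y1 - P * (p : ℤ) = 0 := Int.abs_lt_one_iff.1 (by
    exact_mod_cast (show |(Q : ℝ) * y1 - P * p| < 1 by
      nlinarith [abs_nonneg ξ, mul_nonneg (by linarith : (0 : ℝ) ≤ Q) hL0]))
  have hB' : Q * y2 - P * y1 = 0 := Int.abs_lt_one_iff.1 (by
    exact_mod_cast hB.trans_lt hsmall)
  have hdvd : Q ^ 2 ∣ (p : ℤ) :=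
    ((hco.pow (m := 2) (n := 2)).dvd_of_dvd_mul_left ⟨y2, by
      linear_combination -P * hA' - Q * hB'⟩)
  have := Int.le_of_dvd (by omega) hdvd
  omega

/-- Three consecutive minimal points are independent infinitely often. -/
theorem exists_det_ne_zero (hL : Tendsto (fun i => err ξ (rec' hξ hg i)) atTop (𝓝 0)) (N : ℕ) :
    ∃ i, N ≤ i ∧ dot (cross (point ξ (rec' hξ hg i)) (point ξ (rec' hξ hg (i + 1))))
      (point ξ (rec' hξ hg (i + 2))) ≠ 0 := by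
  by_contra! hcon
  set n := cross (point ξ (rec' hξ hg N)) (point ξ (rec' hξ hg (N + 1))) with hn
  have hall : ∀ j, dot n (point ξ (rec' hξ hg (N + j))) = 0 ∧
      dot n (point ξ (rec' hξ hg (N + j + 1))) = 0 := fun j => by
    induction j with
    | zero =>
      rw [hn, Nat.add_zero]
      constructor <;> (simp only [cross, dot]; ring)
    | succ j ih =>
      exact ⟨ih.2, dot_eq_zero_of_coplanar (cross_rec_ne_zero hξ hg (N + j)) ih.1 ih.2
        (hcon (N + j) (Nat.le_add_right _ _))⟩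
  obtain ⟨n0, n1, n2, hn'⟩ : ∃ n0 n1 n2 : ℤ, n = (n0, n1, n2) := ⟨_, _, _, rfl⟩
  have hle : ∀ i, N ≤ i → |(n0 : ℝ) + n1 * ξ + n2 * ξ ^ 2| ≤
      (|(n1 : ℝ)| + |(n2 : ℝ)|) * err ξ (rec' hξ hg i) := fun i hi => by
    obtain ⟨j, rfl⟩ := Nat.exists_eq_add_of_le hi
    have h := (hall j).1
    rw [hn'] at h
    simp only [dot, point] at h
    set q := rec' hξ hg (N + j)
    have h' : (n0 : ℝ) * (q : ℝ) + n1 * (round ((q : ℝ) * ξ) : ℝ) +
        n2 * (round ((q : ℝ) * ξ ^ 2) : ℝ) = 0 := by exact_mod_cast h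
    have hq : (1 : ℝ) ≤ q := by exact_mod_cast one_le_rec hξ hg (N + j)
    have e : (q : ℝ) * ((n0 : ℝ) + n1 * ξ + n2 * ξ ^ 2) =
        n1 * ((q : ℝ) * ξ - round ((q : ℝ) * ξ)) +
          n2 * ((q : ℝ) * ξ ^ 2 - round ((q : ℝ) * ξ ^ 2)) := by linear_combination h'
    refine le_trans (le_mul_of_one_le_left (abs_nonneg _) hq) ?_
    rw [← Nat.abs_cast, ← abs_mul, e, add_mul]
    refine (abs_add_le _ _).trans ?_
    rw [abs_mul, abs_mul]
    exact add_le_add (mul_le_mul_of_nonneg_left (abs_err_fst ξ q) (abs_nonneg _))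
      (mul_le_mul_of_nonneg_left (abs_err_snd ξ q) (abs_nonneg _))
  have hzero : (n0 : ℝ) + n1 * ξ + n2 * ξ ^ 2 = 0 := by
    have hlim := hL.const_mul (|(n1 : ℝ)| + |(n2 : ℝ)|)
    rw [mul_zero] at hlim
    exact abs_nonpos_iff.1 (ge_of_tendsto hlim ((eventually_ge_atTop N).mono hle))
  obtain ⟨h0, h1, h2⟩ := hξ n0 n1 n2 hzero
  exact cross_rec_ne_zero hξ hg N (by rw [← hn, hn', h0, h1, h2])

end

/-- **The theorem of Davenport and Schmidt.** -/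
theorem not_uniform {ξ : ℝ} (hξ : NotQuadratic ξ) {c X0 : ℝ} (hc0 : 0 < c)
    (hc : 10 * c * (|ξ| + 1) ≤ 1) : ¬Uniform ξ c X0 := by
  intro h
  have hg := good_of_uniform h
  obtain ⟨N, hN⟩ := exists_nat_ge (2 * X0)
  have hb : ∀ i, N ≤ i →
      err ξ (rec' hξ hg i) ≤ 2 * c * (rec' hξ hg (i + 1) : ℝ) ^ (-lam) := fun i hi => by
    set Y : ℝ := (rec' hξ hg (i + 1) : ℝ)
    have hY : (N : ℝ) < Y := by
      exact Nat.cast_lt.2 (lt_of_le_of_lt hi ((Nat.lt_succ_self i).trans (le_rec hξ hg (i + 1))))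
    have hY0 : 0 < Y := lt_of_le_of_lt N.cast_nonneg hY
    obtain ⟨x0, x1, x2, hne, hx0, hle⟩ := h (Y / 2) (by linarith)
    have hlt : x0.natAbs < rec' hξ hg (i + 1) := by
      have : (x0.natAbs : ℝ) < Y := by
        rw [Nat.cast_natAbs, Int.cast_abs]
        linarith
      exact Nat.cast_lt.1 this
    refine ((err_rec_le_max hξ hg hne hlt).trans hle).trans ?_
    rw [Real.div_rpow hY0.le zero_le_two, Real.rpow_neg zero_le_two, div_inv_eq_mul]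
    have h2 : (2 : ℝ) ^ lam ≤ 2 := by
      simpa using Real.rpow_le_rpow_of_exponent_le one_le_two lam_lt_one.le
    have := Real.rpow_nonneg hY0.le (-lam)
    calc c * (Y ^ (-lam) * 2 ^ lam) ≤ c * (Y ^ (-lam) * 2) := by gcongr
      _ = 2 * c * Y ^ (-lam) := by ring
  have hL : Tendsto (fun i => err ξ (rec' hξ hg i)) atTop (𝓝 0) := by
    have hY : Tendsto (fun i => (rec' hξ hg (i + 1) : ℝ)) atTop atTop :=
      tendsto_natCast_atTop_atTop.comp (tendsto_atTop_mono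
        (fun i => ((Nat.le_succ i).trans (le_rec hξ hg (i + 1)).le)) tendsto_id)
    have hlim := ((tendsto_rpow_neg_atTop (by linarith [half_lt_lam] : 0 < lam)).comp hY).const_mul
      (2 * c)
    rw [mul_zero] at hlim
    exact squeeze_zero' (Eventually.of_forall fun i => err_nonneg _ _)
      ((eventually_ge_atTop N).mono hb) hlim
  obtain ⟨i, hi, hdet⟩ := exists_det_ne_zero hξ hg hL N
  set p := rec' hξ hg i
  set q := rec' hξ hg (i + 1) with hq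
  set r := rec' hξ hg (i + 2) with hr
  have hD1 : (1 : ℝ) ≤ 6 * r * err ξ q * err ξ p :=
    le_trans (by exact_mod_cast Int.one_le_abs hdet) (abs_det_le (rec_lt_succ hξ hg i).le
      (rec_lt_succ hξ hg (i + 1)).le (err_rec_succ hξ hg i).le (err_rec_succ hξ hg (i + 1)).le)
  have hb1 : err ξ q ≤ 2 * c * (r : ℝ) ^ (-lam) := hb (i + 1) (by omega)
  have hb0 : err ξ p ≤ 2 * c * (q : ℝ) ^ (-lam) := hb i hi
  have hconic := det_ne_zero hξ hg hb0 hc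
  rw [← hq] at hconic
  have hq1 : (1 : ℝ) ≤ q := by exact_mod_cast one_le_rec hξ hg (i + 1)
  have hr1 : (1 : ℝ) ≤ r := by exact_mod_cast one_le_rec hξ hg (i + 2)
  have hS : (1 : ℝ) ≤ (2 * |ξ| + 2) * q * err ξ q := by
    refine le_trans (by exact_mod_cast Int.one_le_abs hconic :
      (1 : ℝ) ≤ |((q : ℤ) : ℝ) * (round ((q : ℝ) * ξ ^ 2) : ℝ) -
        (round ((q : ℝ) * ξ) : ℝ) ^ 2|) ?_
    rw [Int.cast_natCast, show (q : ℝ) * round ((q : ℝ) * ξ ^ 2) - (round ((q : ℝ) * ξ) : ℝ) ^ 2 =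
      ((q : ℝ) * ξ - round ((q : ℝ) * ξ)) * ((q : ℝ) * ξ + round ((q : ℝ) * ξ)) -
        (q : ℝ) * ((q : ℝ) * ξ ^ 2 - round ((q : ℝ) * ξ ^ 2)) by ring]
    refine (abs_sub _ _).trans ?_
    rw [abs_mul, abs_mul, Nat.abs_cast]
    have h1 : |(q : ℝ) * ξ + round ((q : ℝ) * ξ)| ≤ (2 * |ξ| + 1) * q := by
      have h2 := abs_sub_round ((q : ℝ) * ξ)
      have h3 : |(q : ℝ) * ξ| ≤ |ξ| * q := by rw [abs_mul, Nat.abs_cast, mul_comm]
      rw [abs_le] at h2 h3 ⊢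
      constructor <;> linarith
    have h4 := mul_le_mul (abs_err_fst ξ q) h1 (abs_nonneg _) (err_nonneg _ _)
    have h5 := mul_le_mul_of_nonneg_left (abs_err_snd ξ q) q.cast_nonneg
    linarith
  -- `q` is at least `r ^ lam`.
  have hqr : (r : ℝ) ^ lam ≤ q := by
    have h1 : (2 * |ξ| + 2) * (q : ℝ) * err ξ q ≤ (q : ℝ) * (r : ℝ) ^ (-lam) := by
      calc (2 * |ξ| + 2) * (q : ℝ) * err ξ q
          ≤ (2 * |ξ| + 2) * (q : ℝ) * (2 * c * (r : ℝ) ^ (-lam)) := by gcongr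
        _ = (4 * c * (|ξ| + 1)) * ((q : ℝ) * (r : ℝ) ^ (-lam)) := by ring
        _ ≤ 1 * ((q : ℝ) * (r : ℝ) ^ (-lam)) := by
            gcongr
            nlinarith [abs_nonneg ξ]
        _ = _ := one_mul _
    rw [Real.rpow_neg (by linarith)] at h1
    have h2 := hS.trans h1
    rwa [← div_eq_mul_inv, one_le_div (Real.rpow_pos_of_pos (by linarith) _)] at h2
  have h6 : (q : ℝ) ^ (-lam) ≤ (r : ℝ) ^ (lam * -lam) := by
    rw [Real.rpow_mul (by linarith)]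
    exact Real.rpow_le_rpow_of_nonpos (Real.rpow_pos_of_pos (by linarith) _) hqr
      (by linarith [half_lt_lam])
  have h7 : (r : ℝ) * (r : ℝ) ^ (-lam) * (r : ℝ) ^ (lam * -lam) = 1 := by
    rw [mul_assoc, ← Real.rpow_add (by linarith), mul_comm, ← Real.rpow_add_one (by linarith),
      show -lam + lam * -lam + 1 = 0 by linear_combination -lam_sq, Real.rpow_zero]
  have h8 : 6 * (r : ℝ) * err ξ q * err ξ p ≤ 24 * c ^ 2 := by
    calc 6 * (r : ℝ) * err ξ q * err ξ p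
        ≤ 6 * (r : ℝ) * (2 * c * (r : ℝ) ^ (-lam)) * (2 * c * (r : ℝ) ^ (lam * -lam)) := by
          have := err_nonneg ξ p
          have := err_nonneg ξ q
          refine mul_le_mul (mul_le_mul_of_nonneg_left hb1 (by positivity))
            (hb0.trans (mul_le_mul_of_nonneg_left h6 (by positivity))) (by positivity)
            (by positivity)
      _ = 24 * c ^ 2 * ((r : ℝ) * (r : ℝ) ^ (-lam) * (r : ℝ) ^ (lam * -lam)) := by ring
      _ = 24 * c ^ 2 := by rw [h7, mul_one]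
  nlinarith [abs_nonneg ξ]

end FA.UniformSquare
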