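import Fermat.Agent.UniformSquare.Main
import Fermat.Agent.Perfect.Transference
import Mathlib.Topology.Order.IntermediateValue

/-!
# Approximation by cubic algebraic integers

If no `(x0, x1, x2)` of height `X` comes within `δ` of the line of `(1, ξ, ξ ^ 2)`, transference
gives three independent quadratic polynomials of height `≪ 1 / δ` and value `≪ 1 / X` at `ξ`; a
monic cubic is built from them with small value and large derivative at `ξ`.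
-/

set_option autoImplicit false

noncomputable section

open Filter Topology Matrix FA.Perfect FA.Reduction

namespace FA.UniformSquare

/-- **The dual polynomials.** -/
theorem exists_dual {ξ X δ : ℝ} (hX : 0 < X) (hδ : 0 < δ)
    (h : ∀ x0 x1 x2 : ℤ, (x0 ≠ 0 ∨ x1 ≠ 0 ∨ x2 ≠ 0) → |(x0 : ℝ)| ≤ X →
      δ < max |(x0 : ℝ) * ξ - x1| |(x0 : ℝ) * ξ ^ 2 - x2|) :
    ∃ v : Fin 3 → Fin 3 → ℤ, LinearIndependent ℝ (castVec ∘ v) ∧
      ∀ k, |(v k 0 : ℝ) + v k 1 * ξ + v k 2 * ξ ^ 2| ≤ 3 / X ∧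
        |(v k 1 : ℝ)| ≤ 3 / δ ∧ |(v k 2 : ℝ)| ≤ 3 / δ := by
  set A : Matrix (Fin 3) (Fin 3) ℝ := !![1 / X, 0, 0; ξ / δ, -(1 / δ), 0; ξ ^ 2 / δ, 0, -(1 / δ)]
    with hA
  set B : Matrix (Fin 3) (Fin 3) ℝ := !![X, 0, 0; X * ξ, -δ, 0; X * ξ ^ 2, 0, -δ] with hB
  have hAB : A * B = 1 := by
    ext i j
    fin_cases i <;> fin_cases j <;> simp [hA, hB, Matrix.mul_apply, Fin.sum_univ_three] <;>
      field_simp <;> ring
  have hBA : B * A = 1 := mul_eq_one_comm.1 hAB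
  have hinv : (Aᵀ * A)⁻¹ = B * Bᵀ := Matrix.inv_eq_right_inv (by
    rw [Matrix.mul_assoc, ← Matrix.mul_assoc A, hAB, Matrix.one_mul, ← Matrix.transpose_mul,
      hBA, Matrix.transpose_one])
  have hval : ∀ x : Fin 3 → ℝ, quad (Aᵀ * A) x =
      (x 0 / X) ^ 2 + ((x 0 * ξ - x 1) / δ) ^ 2 + ((x 0 * ξ ^ 2 - x 2) / δ) ^ 2 := fun x => by
    simp [hA, quad, dotProduct, mulVec, Matrix.mul_apply, Fin.sum_univ_three]
    ring
  have hval' : ∀ x : Fin 3 → ℝ, quad (B * Bᵀ) x =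
      (X * (x 0 + x 1 * ξ + x 2 * ξ ^ 2)) ^ 2 + (δ * x 1) ^ 2 + (δ * x 2) ^ 2 := fun x => by
    simp [hB, quad, dotProduct, mulVec, Matrix.mul_apply, Fin.sum_univ_three]
    ring
  have hP : (Aᵀ * A).PosDef := by
    refine posDef_iff_quad.2 ⟨Matrix.isSymm_transpose_mul_self A, fun x hx => ?_⟩
    rw [hval]
    by_contra hle
    rw [not_lt] at hle
    have e0 : x 0 / X = 0 := by
      nlinarith [sq_nonneg ((x 0 * ξ - x 1) / δ), sq_nonneg ((x 0 * ξ ^ 2 - x 2) / δ)]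
    have e1 : (x 0 * ξ - x 1) / δ = 0 := by
      nlinarith [sq_nonneg (x 0 / X), sq_nonneg ((x 0 * ξ ^ 2 - x 2) / δ)]
    have e2 : (x 0 * ξ ^ 2 - x 2) / δ = 0 := by
      nlinarith [sq_nonneg (x 0 / X), sq_nonneg ((x 0 * ξ - x 1) / δ)]
    simp only [div_eq_zero_iff, hX.ne', hδ.ne', or_false] at e0 e1 e2
    rw [e0, zero_mul, zero_sub, neg_eq_zero] at e1 e2
    refine hx (funext fun i => ?_)
    fin_cases i <;> assumption
  have hmin : (1 : ℝ) ≤ minVal (Aᵀ * A) := le_minVal fun w hw => by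
    have hne : w 0 ≠ 0 ∨ w 1 ≠ 0 ∨ w 2 ≠ 0 := by
      by_contra hcon
      simp only [not_or, ne_eq, not_not] at hcon
      refine hw (funext fun i => ?_)
      fin_cases i
      exacts [hcon.1, hcon.2.1, hcon.2.2]
    rw [ival, hval]
    rcases le_or_gt |(w 0 : ℝ)| X with h0 | h0
    · rcases lt_max_iff.1 (h (w 0) (w 1) (w 2) hne h0) with h1 | h1
      · have h2 : 1 ≤ (((w 0 : ℝ) * ξ - w 1) / δ) ^ 2 := by
          rw [div_pow, one_le_div (by positivity), ← sq_abs ((w 0 : ℝ) * ξ - w 1)]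
          exact pow_le_pow_left₀ hδ.le h1.le 2
        nlinarith [sq_nonneg ((w 0 : ℝ) / X), sq_nonneg (((w 0 : ℝ) * ξ ^ 2 - w 2) / δ)]
      · have h2 : 1 ≤ (((w 0 : ℝ) * ξ ^ 2 - w 2) / δ) ^ 2 := by
          rw [div_pow, one_le_div (by positivity), ← sq_abs ((w 0 : ℝ) * ξ ^ 2 - w 2)]
          exact pow_le_pow_left₀ hδ.le h1.le 2
        nlinarith [sq_nonneg ((w 0 : ℝ) / X), sq_nonneg (((w 0 : ℝ) * ξ - w 1) / δ)]
    · have h2 : 1 ≤ ((w 0 : ℝ) / X) ^ 2 := by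
        rw [div_pow, one_le_div (by positivity), ← sq_abs (w 0 : ℝ)]
        exact pow_le_pow_left₀ hX.le h0.le 2
      nlinarith [sq_nonneg (((w 0 : ℝ) * ξ - w 1) / δ),
        sq_nonneg (((w 0 : ℝ) * ξ ^ 2 - w 2) / δ)]
  obtain ⟨-, -, hfst, -⟩ := succMin_attained hP
  have htr := (transference hP (fun _ hQ => hermiteInv_le_hermite hQ) (0 : Fin 3)).2
  rw [Real.sq_sqrt (by positivity)] at htr
  obtain ⟨⟨v, hv, hveq⟩, hmono, -, hpos⟩ := succMin_attained hP.inv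
  have hlast : succMin (Aᵀ * A)⁻¹ (0 : Fin 3).rev ≤ 6 := by
    have h1 : succMin (Aᵀ * A)⁻¹ (0 : Fin 3).rev ≤
        succMin (Aᵀ * A) 0 * succMin (Aᵀ * A)⁻¹ (0 : Fin 3).rev :=
      le_mul_of_one_le_left (hpos _).le (hfst ▸ hmin)
    refine h1.trans (htr.trans ?_)
    norm_num
  refine ⟨v, hv, fun k => ?_⟩
  have hk : ival (B * Bᵀ) (v k) ≤ 6 := by
    rw [← hinv, hveq k]
    refine (hmono ?_).trans hlast
    rw [Fin.rev_zero]
    exact Fin.le_last k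
  rw [ival, hval'] at hk
  have key : ∀ {t s : ℝ}, 0 < s → (s * t) ^ 2 ≤ 6 → |t| ≤ 3 / s := fun {t s} hs hle => by
    rw [le_div_iff₀ hs, ← abs_of_pos hs, ← abs_mul, mul_comm]
    exact abs_le_of_sq_le_sq (by linarith) (by norm_num)
  refine ⟨key hX ?_, key hδ ?_, key hδ ?_⟩
  all_goals
    nlinarith [sq_nonneg (X * ((v k 0 : ℝ) + v k 1 * ξ + v k 2 * ξ ^ 2)),
      sq_nonneg (δ * (v k 1 : ℝ)), sq_nonneg (δ * (v k 2 : ℝ))]

/-- A monic cubic with a small value, a large derivative and moderate coefficients has a root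
close by, different from the point itself. -/
theorem exists_root_near {ξ a b d e H K : ℝ} (he : 0 < e) (hH : 0 < H)
    (h0 : e / 2 ≤ ξ ^ 3 + a * ξ ^ 2 + b * ξ + d) (h0' : ξ ^ 3 + a * ξ ^ 2 + b * ξ + d ≤ 4 * e)
    (h1 : H ≤ 3 * ξ ^ 2 + 2 * a * ξ + b) (h2 : |3 * ξ + a| + 1 ≤ K * H)
    (hsmall : 64 * K * e ≤ 2 * H) (hsmall' : 8 * e ≤ H) :
    ∃ α : ℝ, α ^ 3 + a * α ^ 2 + b * α + d = 0 ∧ α ≠ ξ ∧ |ξ - α| ≤ 8 * e / H := by
  set u := 8 * e / H with hu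
  have hu0 : 0 < u := by positivity
  have hu1 : u ≤ 1 := (div_le_one hH).2 hsmall'
  set f : ℝ → ℝ := fun t => t ^ 3 + a * t ^ 2 + b * t + d with hf
  have hexp : f (ξ - u) = f ξ - u * (3 * ξ ^ 2 + 2 * a * ξ + b) + u ^ 2 * (3 * ξ + a - u) := by
    simp only [hf]
    ring
  have hneg : f (ξ - u) ≤ 0 := by
    have hq : u ^ 2 * (3 * ξ + a - u) ≤ u ^ 2 * (K * H) :=
      mul_le_mul_of_nonneg_left (by linarith [le_abs_self (3 * ξ + a)]) (sq_nonneg u)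
    have hlin : 8 * e ≤ u * (3 * ξ ^ 2 + 2 * a * ξ + b) := by
      calc 8 * e = u * H := by rw [hu, div_mul_cancel₀ _ hH.ne']
        _ ≤ _ := mul_le_mul_of_nonneg_left h1 hu0.le
    have hsq : u ^ 2 * (K * H) ≤ 2 * e := by
      rw [hu, div_pow, div_mul_eq_mul_div, div_le_iff₀ (by positivity)]
      nlinarith [mul_le_mul_of_nonneg_left hsmall (mul_nonneg he.le hH.le)]
    rw [hexp]
    linarith [show f ξ ≤ 4 * e from h0']
  have hpos : 0 ≤ f ξ := le_trans (by linarith) h0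
  obtain ⟨α, hα, hα0⟩ := intermediate_value_Icc (by linarith : ξ - u ≤ ξ)
    (by simp only [hf]; fun_prop : ContinuousOn f (Set.Icc (ξ - u) ξ)) ⟨hneg, hpos⟩
  refine ⟨α, hα0, fun heq => ?_, abs_le.2 ⟨by linarith [hα.2], by linarith [hα.1]⟩⟩
  subst heq
  linarith [show α ^ 3 + a * α ^ 2 + b * α + d = 0 from hα0]

/-- The constant in the height of the cubic. -/
def heightConst (ξ : ℝ) : ℝ :=
  2 * (1 + 2 * |ξ|) + 1 + 3 * ξ ^ 2 + |ξ| ^ 3 + |ξ| * (2 * (1 + 2 * |ξ|) + 1 + 3 * ξ ^ 2) +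
    2 * (2 + |ξ| + ξ ^ 2) + 8 + 3 * |ξ|

/-- **The monic cubic.** -/
theorem exists_cubic_poly {ξ e H : ℝ} (he : 0 ≤ e) (heH : e ≤ H) (hH : 1 ≤ H)
    {v : Fin 3 → Fin 3 → ℤ} (hv : LinearIndependent ℝ (castVec ∘ v))
    (hvb : ∀ k, |(v k 0 : ℝ) + v k 1 * ξ + v k 2 * ξ ^ 2| ≤ e ∧
      |(v k 1 : ℝ)| ≤ H ∧ |(v k 2 : ℝ)| ≤ H) :
    ∃ a b d : ℤ, |ξ ^ 3 + a * ξ ^ 2 + b * ξ + d - 2 * e| ≤ 3 / 2 * e ∧
      H ≤ 3 * ξ ^ 2 + 2 * a * ξ + b ∧
      |(a : ℝ)| ≤ 2 * H ∧ |(b : ℝ)| ≤ heightConst ξ * H ∧ |(d : ℝ)| ≤ heightConst ξ * H := by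
  set A : ℝ := 2 * (1 + 2 * |ξ|) + 1 with hA
  have hA0 : 0 ≤ A := by positivity
  set T1 := A * H - 3 * ξ ^ 2 with hT1
  set T0 := 2 * e - ξ ^ 3 - T1 * ξ with hT0
  have hspan : ![T0, T1, 0] ∈ Submodule.span ℝ (Set.range (castVec ∘ v)) := by
    rw [hv.span_eq_top_of_card_eq_finrank (by simp)]
    exact Submodule.mem_top
  obtain ⟨θ, hθ⟩ := (Submodule.mem_span_range_iff_exists_fun ℝ).1 hspan
  have hθi : ∀ i, θ 0 * (v 0 i : ℝ) + θ 1 * v 1 i + θ 2 * v 2 i = ![T0, T1, 0] i := fun i => by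
    simpa [Fin.sum_univ_three, castVec] using congrFun hθ i
  have hθ0 : θ 0 * (v 0 0 : ℝ) + θ 1 * v 1 0 + θ 2 * v 2 0 = T0 := by simpa using hθi 0
  have hθ1 : θ 0 * (v 0 1 : ℝ) + θ 1 * v 1 1 + θ 2 * v 2 1 = T1 := by simpa using hθi 1
  have hθ2 : θ 0 * (v 0 2 : ℝ) + θ 1 * v 1 2 + θ 2 * v 2 2 = 0 := by simpa using hθi 2
  set d := round (θ 0) * v 0 0 + round (θ 1) * v 1 0 + round (θ 2) * v 2 0 with hd
  set b := round (θ 0) * v 0 1 + round (θ 1) * v 1 1 + round (θ 2) * v 2 1 with hb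
  set a := round (θ 0) * v 0 2 + round (θ 1) * v 1 2 + round (θ 2) * v 2 2 with ha
  have hround : ∀ {t : Fin 3 → ℝ} {B : ℝ}, (∀ k, |t k| ≤ B) →
      |((round (θ 0) : ℝ) - θ 0) * t 0 + ((round (θ 1) : ℝ) - θ 1) * t 1 +
        ((round (θ 2) : ℝ) - θ 2) * t 2| ≤ 3 / 2 * B := fun {t B} ht => by
    have h1 : ∀ k : Fin 3, |((round (θ k) : ℝ) - θ k) * t k| ≤ 1 / 2 * B := fun k => by
      rw [abs_mul, abs_sub_comm]
      exact mul_le_mul (abs_sub_round _) (ht k) (abs_nonneg _) (by norm_num)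
    refine (abs_add_three _ _ _).trans ?_
    linarith [h1 0, h1 1, h1 2]
  have hξH : 0 ≤ |ξ| * H := mul_nonneg (abs_nonneg _) (by linarith)
  have hξ2H : 0 ≤ ξ ^ 2 * H := mul_nonneg (sq_nonneg _) (by linarith)
  have hξ2 : ξ ^ 2 ≤ ξ ^ 2 * H := le_mul_of_one_le_right (sq_nonneg _) hH
  have hcoef0 : ∀ k, |(v k 0 : ℝ)| ≤ (1 + |ξ| + ξ ^ 2) * H := fun k => by
    obtain ⟨g0, g1, g2⟩ := hvb k
    rw [show (v k 0 : ℝ) = ((v k 0 : ℝ) + v k 1 * ξ + v k 2 * ξ ^ 2) -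
      (v k 1 * ξ + v k 2 * ξ ^ 2) by ring]
    refine (abs_sub _ _).trans ((add_le_add g0 (abs_add_le _ _)).trans ?_)
    rw [abs_mul, abs_mul, abs_pow, sq_abs]
    have h1 := mul_le_mul_of_nonneg_right g1 (abs_nonneg ξ)
    have h2 := mul_le_mul_of_nonneg_right g2 (sq_nonneg ξ)
    linarith
  have ga : |(a : ℝ)| ≤ 2 * H := by
    have e1 : (a : ℝ) = ((round (θ 0) : ℝ) - θ 0) * v 0 2 + ((round (θ 1) : ℝ) - θ 1) * v 1 2 +
        ((round (θ 2) : ℝ) - θ 2) * v 2 2 := by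
      rw [ha]; push_cast; linear_combination hθ2
    rw [e1]
    linarith [hround fun k => (hvb k).2.2]
  have gb : |(b : ℝ) - T1| ≤ 3 / 2 * H := by
    have e1 : (b : ℝ) - T1 = ((round (θ 0) : ℝ) - θ 0) * v 0 1 +
        ((round (θ 1) : ℝ) - θ 1) * v 1 1 + ((round (θ 2) : ℝ) - θ 2) * v 2 1 := by
      rw [hb]; push_cast; linear_combination hθ1
    rw [e1]
    exact hround fun k => (hvb k).2.1
  have gd : |(d : ℝ) - T0| ≤ 3 / 2 * ((1 + |ξ| + ξ ^ 2) * H) := by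
    have e1 : (d : ℝ) - T0 = ((round (θ 0) : ℝ) - θ 0) * v 0 0 +
        ((round (θ 1) : ℝ) - θ 1) * v 1 0 + ((round (θ 2) : ℝ) - θ 2) * v 2 0 := by
      rw [hd]; push_cast; linear_combination hθ0
    rw [e1]
    exact hround hcoef0
  have gval : |ξ ^ 3 + a * ξ ^ 2 + b * ξ + d - 2 * e| ≤ 3 / 2 * e := by
    have e1 : ξ ^ 3 + a * ξ ^ 2 + b * ξ + d - 2 * e =
        ((round (θ 0) : ℝ) - θ 0) * ((v 0 0 : ℝ) + v 0 1 * ξ + v 0 2 * ξ ^ 2) +
        ((round (θ 1) : ℝ) - θ 1) * ((v 1 0 : ℝ) + v 1 1 * ξ + v 1 2 * ξ ^ 2) +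
        ((round (θ 2) : ℝ) - θ 2) * ((v 2 0 : ℝ) + v 2 1 * ξ + v 2 2 * ξ ^ 2) := by
      rw [ha, hb, hd]
      push_cast
      linear_combination hθ0 + ξ * hθ1 + ξ ^ 2 * hθ2 + hT0
    rw [e1]
    exact hround fun k => (hvb k).1
  rw [abs_le] at gb gd
  have hT1' : |T1| ≤ (A + 3 * ξ ^ 2) * H := by
    have h1 : 0 ≤ A * H := mul_nonneg hA0 (by linarith)
    rw [abs_le, hT1, add_mul]
    constructor <;> linarith [sq_nonneg ξ]
  have hT1ξ : |T1 * ξ| ≤ (A + 3 * ξ ^ 2) * H * |ξ| := by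
    rw [abs_mul]
    exact mul_le_mul_of_nonneg_right hT1' (abs_nonneg _)
  have hξ3 : |ξ ^ 3| ≤ |ξ| ^ 3 * H := by
    rw [abs_pow]
    exact le_mul_of_one_le_right (by positivity) hH
  have h3 : 0 ≤ |ξ| ^ 3 * H := mul_nonneg (by positivity) (by linarith)
  have h4 : 0 ≤ |ξ| * ((A + 3 * ξ ^ 2) * H) :=
    mul_nonneg (abs_nonneg _) (mul_nonneg (by positivity) (by linarith))
  have h5 : 0 ≤ A * H := mul_nonneg hA0 (by linarith)
  refine ⟨a, b, d, gval, ?_, ga, ?_, ?_⟩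
  · have hax : |2 * (a : ℝ) * ξ| ≤ 4 * H * |ξ| := by
      rw [abs_mul, abs_mul, abs_two]
      exact mul_le_mul_of_nonneg_right (by linarith) (abs_nonneg _)
    rw [hT1, hA] at gb
    linarith [(abs_le.1 hax).1, gb.1]
  · rw [abs_le] at hT1'
    rw [heightConst, ← hA, abs_le]
    constructor <;> linarith
  · rw [abs_le] at hT1ξ hξ3
    rw [heightConst, ← hA, abs_le]
    constructor <;> linarith

/-- **Cubic algebraic integers near `ξ`.** -/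
theorem exists_cubic_approx {ξ : ℝ} (hξ : NotQuadratic ξ) :
    ∃ C : ℝ, 0 < C ∧ ∀ ε : ℝ, 0 < ε → ∃ (a b d : ℤ) (α : ℝ),
      α ^ 3 + a * α ^ 2 + b * α + d = 0 ∧ α ≠ ξ ∧ |ξ - α| < ε ∧ |ξ - α| ≤ C *
        (max 1 (max |(a : ℝ)| (max |(b : ℝ)| |(d : ℝ)|))) ^ (-((3 + Real.sqrt 5) / 2)) := by
  set c : ℝ := 1 / (10 * (|ξ| + 1)) with hc
  have hc0 : 0 < c := by positivity
  have hc1 : 10 * c * (|ξ| + 1) ≤ 1 := by
    rw [hc]
    field_simp
    rfl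
  set K : ℝ := heightConst ξ with hK
  have hKge : 8 + 3 * |ξ| ≤ K := by
    have : 0 ≤ 2 * (1 + 2 * |ξ|) + 1 + 3 * ξ ^ 2 + |ξ| ^ 3 +
        |ξ| * (2 * (1 + 2 * |ξ|) + 1 + 3 * ξ ^ 2) + 2 * (2 + |ξ| + ξ ^ 2) := by positivity
    rw [hK, heightConst]
    linarith
  have hK0 : 0 < K := by linarith [abs_nonneg ξ]
  set g : ℝ := (3 + Real.sqrt 5) / 2 with hg
  have hg0 : 0 < g := by positivity
  have hlg : lam * g = 1 + lam := by
    have h := Real.sq_sqrt (show (0 : ℝ) ≤ 5 by norm_num)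
    unfold lam
    rw [hg]
    nlinarith
  refine ⟨8 * c * (3 * K / c) ^ g, by positivity, fun ε hε => ?_⟩
  have hlam : 0 < lam := by linarith [half_lt_lam]
  have hlim : Tendsto (fun X : ℝ => X ^ (-(1 + lam))) atTop (𝓝 0) :=
    tendsto_rpow_neg_atTop (by linarith)
  obtain ⟨X0, hX0⟩ := eventually_atTop.1 ((eventually_ge_atTop (1 : ℝ)).and
    ((hlim.const_mul (8 * c)).eventually_lt_const (show (8 * c * 0) < min ε (1 / (8 * (K + 1))) by
      rw [mul_zero]; exact lt_min hε (by positivity))))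
  have hnot := not_uniform hξ (X0 := X0) hc0 hc1
  simp only [Uniform, not_forall, not_exists, not_and, not_le] at hnot
  obtain ⟨X, hX, hno⟩ := hnot
  obtain ⟨hX1, hXs⟩ := hX0 X hX
  have hXpos : 0 < X := lt_of_lt_of_le one_pos hX1
  set δ := c * X ^ (-lam) with hδ
  have hδ0 : 0 < δ := mul_pos hc0 (Real.rpow_pos_of_pos hXpos _)
  obtain ⟨v, hv, hvb⟩ := exists_dual hXpos hδ0 hno
  set e := 3 / X with he
  set H := 3 / δ with hH
  have he0 : 0 < e := by positivity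
  have hH0 : 0 < H := by positivity
  have hc2 : c ≤ 1 := by
    rw [hc, div_le_one (by positivity)]
    linarith [abs_nonneg ξ]
  have hH1 : 1 ≤ H := by
    rw [hH, one_le_div hδ0, hδ]
    have h1 : X ^ (-lam) ≤ 1 := Real.rpow_le_one_of_one_le_of_nonpos hX1 (by linarith)
    exact (mul_le_mul hc2 h1 (Real.rpow_nonneg hXpos.le _) zero_le_one).trans (by norm_num)
  have heH : e / H = c * X ^ (-(1 + lam)) := by
    rw [he, hH, hδ, neg_add, Real.rpow_add hXpos, Real.rpow_neg_one]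
    field_simp
  have hsm : 8 * (e / H) < 1 / (8 * (K + 1)) := by
    rw [heH, ← mul_assoc]
    exact hXs.trans_le (min_le_right _ _)
  rw [lt_div_iff₀ (by positivity), ← mul_div_assoc, div_mul_eq_mul_div, div_lt_one hH0] at hsm
  have hKe : 0 ≤ K * e := mul_nonneg hK0.le he0.le
  obtain ⟨a, b, d, gval, gder, ga, gb, gd⟩ :=
    exists_cubic_poly he0.le (by linarith) hH1 hv hvb
  rw [abs_le] at gval
  have h2nd : |3 * ξ + (a : ℝ)| + 1 ≤ (K + 1) * H := by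
    have h3 : |3 * ξ| = 3 * |ξ| := by rw [abs_mul]; norm_num
    have := mul_le_mul_of_nonneg_right hKge hH0.le
    have := mul_le_mul_of_nonneg_left hH1 (show 0 ≤ 3 * |ξ| by positivity)
    linarith [abs_add_le (3 * ξ) (a : ℝ)]
  obtain ⟨α, hroot, hne, hdist⟩ := exists_root_near (a := (a : ℝ)) (b := b) (d := d) (e := e)
    (H := H) (K := K + 1) he0 hH0 (by linarith) (by linarith) gder h2nd (by linarith)
    (by linarith)
  refine ⟨a, b, d, α, hroot, hne, ?_, ?_⟩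
  · refine hdist.trans_lt ?_
    rw [mul_div_assoc, heH, ← mul_assoc]
    exact hXs.trans_le (min_le_left _ _)
  refine hdist.trans ?_
  have h8 : 8 * H ≤ K * H := mul_le_mul_of_nonneg_right (by linarith [abs_nonneg ξ]) hH0.le
  have hht : max 1 (max |(a : ℝ)| (max |(b : ℝ)| |(d : ℝ)|)) ≤ K * H :=
    max_le (by linarith) (max_le (by linarith) (max_le gb gd))
  have hKH : K * H = 3 * K / c * X ^ lam := by
    rw [hH, hδ, Real.rpow_neg hXpos.le]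
    field_simp
  have hX' : (K * H) ^ (-g) = (3 * K / c) ^ (-g) * X ^ (-(1 + lam)) := by
    rw [hKH, Real.mul_rpow (by positivity) (Real.rpow_nonneg hXpos.le _),
      ← Real.rpow_mul hXpos.le, mul_neg, hlg]
  calc 8 * e / H = 8 * c * (3 * K / c) ^ g * (K * H) ^ (-g) := by
        rw [hX', Real.rpow_neg (by positivity : 0 ≤ 3 * K / c), mul_div_assoc, heH]
        field_simp
    _ ≤ 8 * c * (3 * K / c) ^ g *
        (max 1 (max |(a : ℝ)| (max |(b : ℝ)| |(d : ℝ)|))) ^ (-g) := by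
        refine mul_le_mul_of_nonneg_left ?_ (by positivity)
        exact Real.rpow_le_rpow_of_nonpos (lt_of_lt_of_le one_pos (le_max_left _ _)) hht
          (by linarith)

end FA.UniformSquare
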