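import Mathlib.Analysis.SpecialFunctions.Pow.Real
import Mathlib.Algebra.Order.Round
import Mathlib.Tactic

/-!
# The minimal points for a number and its square

`err ξ q` is the distance of `(q ξ, q ξ ^ 2)` to the nearest integer point; the minimal points are
the successive records of `err`.
-/

set_option autoImplicit false

noncomputable section

namespace FA.UniformSquare

/-- No nonzero integer polynomial of degree at most two vanishes at `ξ`. -/
def NotQuadratic (ξ : ℝ) : Prop :=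
  ∀ a b c : ℤ, (a : ℝ) + b * ξ + c * ξ ^ 2 = 0 → a = 0 ∧ b = 0 ∧ c = 0

/-- The distance of `(q ξ, q ξ ^ 2)` to the integers. -/
def err (ξ : ℝ) (q : ℕ) : ℝ :=
  max |(q : ℝ) * ξ - round ((q : ℝ) * ξ)| |(q : ℝ) * ξ ^ 2 - round ((q : ℝ) * ξ ^ 2)|

theorem err_le (ξ : ℝ) (q : ℕ) : err ξ q ≤ 1 / 2 := max_le (abs_sub_round _) (abs_sub_round _)

theorem err_nonneg (ξ : ℝ) (q : ℕ) : 0 ≤ err ξ q := (abs_nonneg _).trans (le_max_left _ _)

theorem err_pos {ξ : ℝ} (hξ : NotQuadratic ξ) {q : ℕ} (hq : 1 ≤ q) : 0 < err ξ q := by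
  refine lt_of_lt_of_le (abs_pos.2 fun h => ?_) (le_max_left _ _)
  have := hξ (-round ((q : ℝ) * ξ)) q 0 (by push_cast; linarith)
  omega

/-- The nearest point is at least as good as any other. -/
theorem err_le_max (ξ : ℝ) (x0 x1 x2 : ℤ) :
    err ξ x0.natAbs ≤ max |(x0 : ℝ) * ξ - x1| |(x0 : ℝ) * ξ ^ 2 - x2| := by
  have key : ∀ (t : ℝ) (y : ℤ), |(x0.natAbs : ℝ) * t - round ((x0.natAbs : ℝ) * t)| ≤
      |(x0 : ℝ) * t - y| := fun t y => by
    rw [Nat.cast_natAbs, Int.cast_abs]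
    rcases abs_choice (x0 : ℝ) with h | h <;> rw [h]
    · exact round_le _ y
    · refine (round_le _ (-y)).trans_eq ?_
      rw [Int.cast_neg, ← abs_neg]
      congr 1
      ring
  exact max_le_max (key ξ x1) (key (ξ ^ 2) x2)

/-- There are arbitrarily good points. -/
def Good (ξ : ℝ) : Prop := ∀ v : ℝ, 0 < v → ∃ q : ℕ, 1 ≤ q ∧ err ξ q < v

theorem exists_better {ξ : ℝ} (hξ : NotQuadratic ξ) (hg : Good ξ) (q : ℕ) :
    ∃ r : ℕ, 1 ≤ r ∧ err ξ r < err ξ (max q 1) :=
  hg _ (err_pos hξ (le_max_right _ _))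

open Classical in
/-- The heights of the minimal points. -/
def rec' {ξ : ℝ} (hξ : NotQuadratic ξ) (hg : Good ξ) : ℕ → ℕ
  | 0 => 1
  | i + 1 => Nat.find (exists_better hξ hg (rec' hξ hg i))

section

variable {ξ : ℝ} (hξ : NotQuadratic ξ) (hg : Good ξ)

theorem one_le_rec : ∀ i, 1 ≤ rec' hξ hg i
  | 0 => le_rfl
  | i + 1 => by classical exact (Nat.find_spec (exists_better hξ hg (rec' hξ hg i))).1

theorem err_rec_succ (i : ℕ) : err ξ (rec' hξ hg (i + 1)) < err ξ (rec' hξ hg i) := by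
  classical
  exact (Nat.find_spec (exists_better hξ hg (rec' hξ hg i))).2.trans_eq
    (congrArg (err ξ) (max_eq_left (one_le_rec hξ hg i)))

/-- Below the next record nothing is better than the present one. -/
theorem err_rec_le {i q : ℕ} (hq : 1 ≤ q) (hlt : q < rec' hξ hg (i + 1)) :
    err ξ (rec' hξ hg i) ≤ err ξ q := by
  classical
  have h := Nat.find_min (exists_better hξ hg (rec' hξ hg i)) hlt
  exact not_lt.1 fun h' => h ⟨hq, h'.trans_eq
    (congrArg (err ξ) (max_eq_left (one_le_rec hξ hg i)).symm)⟩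

theorem rec_lt_succ : ∀ i, rec' hξ hg i < rec' hξ hg (i + 1)
  | 0 => lt_of_le_of_ne (one_le_rec hξ hg 1) fun h =>
      (err_rec_succ hξ hg 0).ne (congrArg (err ξ) h.symm)
  | i + 1 => by
    rcases lt_trichotomy (rec' hξ hg (i + 2)) (rec' hξ hg (i + 1)) with h | h | h
    · have h1 := err_rec_le hξ hg (one_le_rec hξ hg (i + 2)) h
      linarith [err_rec_succ hξ hg i, err_rec_succ hξ hg (i + 1)]
    · exact absurd (congrArg (err ξ) h) (err_rec_succ hξ hg (i + 1)).ne
    · exact h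

theorem le_rec (i : ℕ) : i < rec' hξ hg i := by
  induction i with
  | zero => exact Nat.one_pos
  | succ i ih => exact Nat.lt_of_le_of_lt ih (rec_lt_succ hξ hg i)

theorem err_rec_antitone : Antitone fun i => err ξ (rec' hξ hg i) :=
  antitone_nat_of_succ_le fun i => (err_rec_succ hξ hg i).le

/-- A nonzero point below the next record is no better than the present one. -/
theorem err_rec_le_max {i : ℕ} {x0 x1 x2 : ℤ} (hne : x0 ≠ 0 ∨ x1 ≠ 0 ∨ x2 ≠ 0)
    (hlt : x0.natAbs < rec' hξ hg (i + 1)) :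
    err ξ (rec' hξ hg i) ≤ max |(x0 : ℝ) * ξ - x1| |(x0 : ℝ) * ξ ^ 2 - x2| := by
  rcases eq_or_ne x0 0 with rfl | h0
  · refine le_trans (err_le ξ _) ?_
    simp only [Int.cast_zero, zero_mul, zero_sub, abs_neg]
    rcases hne with h | h | h
    · exact absurd rfl h
    · have : (1 : ℝ) ≤ |(x1 : ℝ)| := by exact_mod_cast Int.one_le_abs h
      exact le_max_of_le_left (by linarith)
    · have : (1 : ℝ) ≤ |(x2 : ℝ)| := by exact_mod_cast Int.one_le_abs h
      exact le_max_of_le_right (by linarith)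
  · exact (err_rec_le hξ hg (Int.natAbs_pos.2 h0) hlt).trans (err_le_max ξ x0 x1 x2)

end

end FA.UniformSquare
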